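import Mathlib.Algebra.Polynomial.SpecificDegree
import Mathlib.FieldTheory.Finite.GaloisField
import Mathlib.RingTheory.LocalRing.ResidueField.Basic
import Mathlib.RingTheory.WittVector.Compare
import Mathlib.RingTheory.WittVector.Complete
import Mathlib.RingTheory.WittVector.DiscreteValuationRing
import Mathlib.RingTheory.WittVector.Domain

/-!
# The coefficient ring

The Witt vectors of the field with `p²` elements: a complete discrete valuation ring over `ℤ_p`
in which `p` generates the maximal ideal and over whose residue field every monic quadratic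
polynomial with coefficients in `ℤ/p` splits.
-/

noncomputable section

namespace Fermat.Agent.Raising.Coeff

open IsLocalRing Polynomial

variable (p : ℕ) [Fact p.Prime]

/-- A coefficient ring: over its residue field the monic quadratics over `ℤ/p` split. -/
structure CoeffRing : Type 1 where
  /-- The ring, a complete discrete valuation ring over `ℤ_p` with uniformiser `p`. -/
  O : Type
  [instCommRing : CommRing O]
  [instDomain : IsDomain O]
  [instDVR : IsDiscreteValuationRing O]
  [instComplete : IsAdicComplete (maximalIdeal O) O]
  [instCharZero : CharZero O]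
  [instFiniteResidue : Finite (ResidueField O)]
  [instCharP : CharP (ResidueField O) p]
  [instAlgebra : Algebra ℤ_[p] O]
  [instLocalHom : IsLocalHom (algebraMap ℤ_[p] O)]
  maximalIdeal_eq : maximalIdeal O = Ideal.span {(p : O)}
  algebraMap_injective : Function.Injective (algebraMap ℤ_[p] O)
  splits : ∀ a d : ZMod p, ∃ α β : ResidueField O,
    X ^ 2 - C (ZMod.castHom (dvd_refl p) (ResidueField O) a) * X +
      C (ZMod.castHom (dvd_refl p) (ResidueField O) d) = (X - C α) * (X - C β)

attribute [instance] CoeffRing.instCommRing CoeffRing.instDomain CoeffRing.instDVR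
  CoeffRing.instComplete CoeffRing.instCharZero CoeffRing.instFiniteResidue CoeffRing.instCharP
  CoeffRing.instAlgebra CoeffRing.instLocalHom

/-- A root of a monic quadratic splits it. -/
theorem exists_split_of_root {R : Type} [CommRing R] {a d α : R}
    (h : α ^ 2 - a * α + d = 0) :
    X ^ 2 - C a * X + C d = (X - C α) * (X - C (a - α)) := by
  have hd : d = α * (a - α) := by linear_combination h
  rw [hd, C_mul, map_sub]
  ring

/-- Over a field of `p²` elements every quadratic over `ℤ/p` has a root. -/
theorem exists_root_of_natCard {k : Type} [Field k] [Finite k] [Algebra (ZMod p) k]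
    (hk : Nat.card k = p ^ 2) (a d : ZMod p) :
    ∃ α : k, α ^ 2 - algebraMap (ZMod p) k a * α + algebraMap (ZMod p) k d = 0 := by
  let f : (ZMod p)[X] := X ^ 2 - C a * X + C d
  have hdeg : f.natDegree = 2 := by simp only [f]; compute_degree!
  by_cases hroot : ∃ x, f.IsRoot x
  · obtain ⟨x, hx⟩ := hroot
    refine ⟨algebraMap (ZMod p) k x, ?_⟩
    have := congrArg (algebraMap (ZMod p) k) hx
    simpa [f] using this
  · push Not at hroot
    have hirr : Irreducible f :=
      (Polynomial.irreducible_iff_roots_eq_zero_of_degree_le_three hdeg.ge (by omega)).2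
        (Multiset.eq_zero_of_forall_notMem fun x hx => hroot x (isRoot_of_mem_roots hx))
    have := Fact.mk hirr
    have hf0 : f ≠ 0 := hirr.ne_zero
    have : Module.Finite (ZMod p) (AdjoinRoot f) := (AdjoinRoot.powerBasis hf0).finite
    have : Finite (AdjoinRoot f) := Module.finite_of_finite (ZMod p)
    have hK : Module.finrank (ZMod p) (AdjoinRoot f) = 2 := by
      rw [(AdjoinRoot.powerBasis hf0).finrank, AdjoinRoot.powerBasis_dim, hdeg]
    have hk' : Module.finrank (ZMod p) k = 2 := by
      have h := Module.natCard_eq_pow_finrank (K := ZMod p) (V := k)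
      rw [hk, Nat.card_zmod] at h
      exact (Nat.pow_right_injective (Fact.out : p.Prime).two_le h).symm
    obtain ⟨j⟩ := FiniteField.nonempty_algHom_of_finrank_dvd (F := ZMod p) (K := AdjoinRoot f)
      (L := k) (by rw [hK, hk'])
    refine ⟨j (AdjoinRoot.root f), ?_⟩
    have h : Polynomial.aeval (j (AdjoinRoot.root f)) f = 0 := by
      rw [Polynomial.aeval_algHom_apply, AdjoinRoot.aeval_eq, AdjoinRoot.mk_self, map_zero]
    simp only [f, map_add, map_sub, map_mul, map_pow, aeval_X, aeval_C] at h
    exact h

/-- Coefficient rings exist. -/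
theorem exists_coeffRing : Nonempty (CoeffRing p) := by
  have hp : p.Prime := Fact.out
  let k := GaloisField p 2
  let O := WittVector p k
  have hmax : maximalIdeal O = Ideal.span {(p : O)} :=
    (WittVector.irreducible p).maximalIdeal_eq
  have : IsAdicComplete (maximalIdeal O) O := hmax ▸ inferInstance
  let f : ℤ_[p] →+* O :=
    (WittVector.map (algebraMap (ZMod p) k)).comp (WittVector.fromPadicInt p)
  have hf : Function.Injective f :=
    (WittVector.map_injective (algebraMap (ZMod p) k) (algebraMap (ZMod p) k).injective).comp
      (Function.LeftInverse.injective (g := WittVector.toPadicInt p)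
        fun x => WittVector.toPadicInt_comp_fromPadicInt_ext p x)
  let : Algebra ℤ_[p] O := f.toAlgebra
  have : IsLocalHom (algebraMap ℤ_[p] O) :=
    ((local_hom_TFAE (algebraMap ℤ_[p] O)).out 0 1).2 <| by
      rintro _ ⟨x, hx, rfl⟩
      rw [SetLike.mem_coe, PadicInt.maximalIdeal_eq_span_p, Ideal.mem_span_singleton] at hx
      obtain ⟨y, rfl⟩ := hx
      rw [SetLike.mem_coe, hmax, map_mul, map_natCast]
      exact Ideal.mul_mem_right _ _ (Ideal.mem_span_singleton_self _)
  have : CharZero O := charZero_of_injective_ringHom hf
  have hker : RingHom.ker (WittVector.constantCoeff : O →+* k) = maximalIdeal O := by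
    rw [hmax, WittVector.ker_constantCoeff]
  let e : ResidueField O ≃+* k := (Ideal.quotEquivOfEq hker.symm).trans
    (RingHom.quotientKerEquivOfSurjective (WittVector.constantCoeff_surjective p))
  have : Finite (ResidueField O) := Finite.of_equiv k e.symm.toEquiv
  have : CharP (ResidueField O) p :=
    charP_of_injective_ringHom (f := e.symm.toRingHom) e.symm.injective p
  refine ⟨{ O := O
            maximalIdeal_eq := hmax
            algebraMap_injective := hf
            splits := fun a d => ?_ }⟩
  obtain ⟨α, hα⟩ := exists_root_of_natCard p (k := k) (GaloisField.card p 2 two_ne_zero) a d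
  have hc : ∀ c : ZMod p, e.symm (algebraMap (ZMod p) k c) =
      ZMod.castHom (dvd_refl p) (ResidueField O) c := fun c =>
    RingHom.congr_fun (RingHom.ext_zmod (e.symm.toRingHom.comp (algebraMap (ZMod p) k)) _) c
  refine ⟨e.symm α, _, exists_split_of_root ?_⟩
  rw [← hc, ← hc, ← map_pow, ← map_mul, ← map_sub, ← map_add, hα, map_zero]

end Fermat.Agent.Raising.Coeff
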