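import Fermat.Agent.Deform.MatRep
import Fermat.Agent.EC.FrobTrace
import Fermat.Agent.Gal.RepTwo
import Fermat.Agent.LevelLowering.Semistable.Image
import Fermat.Agent.Raising.Coeff.Ring
import Fermat.Agent.Raising.Tate.Galois

/-!
# The representations of a curve over a coefficient ring

The Tate module tensored with the coefficient ring, the torsion tensored with its residue field,
their comparison and the splitting of every characteristic polynomial of the latter.
-/

noncomputable section

namespace Fermat.Agent.Raising.Coeff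

open IsLocalRing Polynomial Module WeierstrassCurve
open scoped WeierstrassCurve.Affine

local notation "Qbar" => AlgebraicClosure ℚ
local notation "GQ" => (AlgebraicClosure ℚ ≃ₐ[ℚ] AlgebraicClosure ℚ)

variable {p : ℕ} [Fact p.Prime] (C : CoeffRing p)

instance CoeffRing.instAlgebraZMod : Algebra (ZMod p) (ResidueField C.O) :=
  ZMod.algebra (ResidueField C.O) p

/-- The map of residue fields is reduction modulo `p`. -/
theorem residue_algebraMap (a : ℤ_[p]) :
    residue C.O (algebraMap ℤ_[p] C.O a) =
      algebraMap (ZMod p) (ResidueField C.O) (PadicInt.toZMod a) := by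
  have hmem : a - ((PadicInt.toZMod a).val : ℤ_[p]) ∈ maximalIdeal ℤ_[p] := by
    rw [← PadicInt.ker_toZMod, RingHom.mem_ker, map_sub, map_natCast, ZMod.natCast_zmod_val,
      sub_self]
  have h : residue C.O (algebraMap ℤ_[p] C.O (a - ((PadicInt.toZMod a).val : ℤ_[p]))) = 0 :=
    (residue_eq_zero_iff _).2 (map_nonunit _ _ hmem)
  rw [map_sub, map_sub, sub_eq_zero, map_natCast, map_natCast] at h
  rw [h]
  conv_rhs => rw [← ZMod.natCast_zmod_val (PadicInt.toZMod a), map_natCast]

variable {E : WeierstrassCurve ℚ}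

/-- The Tate module over the coefficient ring. -/
def tateRep (F : Tate.TateFrame E p) : GaloisRepAdic C.O :=
  F.ρ.baseChangeAlong (algebraMap ℤ_[p] C.O) C.instLocalHom

/-- The trace of the Tate module over the coefficient ring. -/
theorem trace_tateRep (F : Tate.TateFrame E p) (σ : GQ) :
    (tateRep C F).trace σ = algebraMap ℤ_[p] C.O (F.ρ.trace σ) := by
  let : Algebra ℤ_[p] C.O := (algebraMap ℤ_[p] C.O).toAlgebra
  exact LinearMap.trace_baseChange (F.ρ.ρ σ) C.O

/-- A `p`-adic scalar acts on the points of level one through its residue. -/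
theorem pt_one_smul (F : Tate.TateFrame E p) (a : ℤ_[p]) (v : F.ρ.V) :
    F.pt 1 (a • v) = (PadicInt.toZMod a).val • F.pt 1 v := by
  rw [← map_nsmul, ← sub_eq_zero, ← map_sub, F.pt_eq_zero_iff_mem_pow, pow_one,
    ← Nat.cast_smul_eq_nsmul ℤ_[p], ← sub_smul]
  refine Submodule.smul_mem_smul ?_ Submodule.mem_top
  rw [← PadicInt.ker_toZMod, RingHom.mem_ker, map_sub, map_natCast, ZMod.natCast_zmod_val, sub_self]

variable [E.IsElliptic]

/-- A basis of the Tate module gives a basis of the torsion with the reduced matrices. -/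
theorem exists_basis_torsion (F : Tate.TateFrame E p) (b : Basis (Fin 2) ℤ_[p] F.ρ.V) :
    ∃ bp : Basis (Fin 2) (ZMod p) (EC.residualRep E p).V, ∀ g : GQ,
      LinearMap.toMatrix bp bp ((EC.residualRep E p).ρ g) =
        (LinearMap.toMatrix b b (F.ρ.ρ g)).map PadicInt.toZMod := by
  have hmem : ∀ v, F.pt 1 v ∈ Submodule.torsionBy ℤ (E⁄Qbar).Point (p : ℤ) := fun v => by
    rw [Submodule.mem_torsionBy_iff, natCast_zsmul]
    exact F.nsmul_pt_one v
  let f : F.ρ.V →+ (EC.residualRep E p).V := (F.pt 1).codRestrict _ hmem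
  have hf : ∀ v, Subtype.val (p := fun x => x ∈ Submodule.torsionBy ℤ (E⁄Qbar).Point (p : ℤ))
      (f v) = F.pt 1 v := fun _ => rfl
  have hfs : ∀ (a : ℤ_[p]) v, f (a • v) = PadicInt.toZMod a • f v := fun a v => by
    have e : f (a • v) = (PadicInt.toZMod a).val • f v := by
      rw [← map_nsmul]
      refine Subtype.ext ?_
      rw [hf, hf, map_nsmul]
      exact pt_one_smul F a v
    rw [e, ← Nat.cast_smul_eq_nsmul (ZMod p), ZMod.natCast_zmod_val]
  have hsurj : Function.Surjective f := fun x => by
    obtain ⟨v, hv⟩ := (F.range_pt 1 x.1).1 (by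
      rw [pow_one, ← natCast_zsmul]; exact (Submodule.mem_torsionBy_iff _ _).1 x.2)
    exact ⟨v, Subtype.ext hv⟩
  have hsum : ∀ v, f v = ∑ i, PadicInt.toZMod (b.repr v i) • f (b i) := fun v => by
    conv_lhs => rw [← b.sum_repr v, map_sum]
    exact Finset.sum_congr rfl fun i _ => hfs _ _
  have hspan : ⊤ ≤ Submodule.span (ZMod p) (Set.range fun i => f (b i)) := fun x _ => by
    obtain ⟨v, rfl⟩ := hsurj x
    rw [hsum]
    exact Submodule.sum_mem _ fun i _ =>
      Submodule.smul_mem _ _ (Submodule.subset_span ⟨i, rfl⟩)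
  have hcard : Fintype.card (Fin 2) = finrank (ZMod p) (EC.residualRep E p).V := by
    rw [Fintype.card_fin, (EC.residualRep E p).finrank_eq]
  let bp : Basis (Fin 2) (ZMod p) (EC.residualRep E p).V :=
    Basis.mk (linearIndependent_of_top_le_span_of_card_eq_finrank hspan hcard) hspan
  have hbp0 : ∀ i, bp i = f (b i) := fun i => Basis.mk_apply _ _ i
  refine ⟨bp, fun g => Matrix.ext fun i j => ?_⟩
  have hg : (EC.residualRep E p).ρ g (bp j) = f (F.ρ.ρ g (b j)) := by
    rw [hbp0]
    exact Subtype.ext (F.pt_smul 1 g (b j)).symm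
  rw [LinearMap.toMatrix_apply, hg, hsum, map_sum, Finsupp.finsetSum_apply, Matrix.map_apply,
    LinearMap.toMatrix_apply, Finset.sum_eq_single i]
  · rw [map_smul, ← hbp0, Basis.repr_self]
    simp
  · intro k _ hk
    rw [map_smul, ← hbp0, Basis.repr_self,
      Finsupp.smul_apply, Finsupp.single_eq_of_ne (Ne.symm hk), smul_zero]
  · exact fun h => absurd (Finset.mem_univ i) h

variable (E) in
/-- The torsion over the residue field of the coefficient ring. -/
def curveRbar : ResidualGaloisRep (ResidueField C.O) :=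
  (EC.residualRep E p).baseChange (ResidueField C.O)

/-- The torsion is the reduction of the Tate module. -/
theorem tateRep_residual (F : Tate.TateFrame E p) :
    (tateRep C F).residual.IsEquiv (curveRbar C E) := by
  let b := Gal.basisTwo F.ρ.finrank_eq
  obtain ⟨bp, hbp⟩ := exists_basis_torsion F b
  obtain ⟨bO, hbO⟩ := Deform.exists_basis_baseChangeAlong (algebraMap ℤ_[p] C.O) C.instLocalHom
    F.ρ b
  obtain ⟨b1, hb1⟩ := Deform.exists_basis_residual (tateRep C F) bO
  refine Deform.residual_isEquiv_of_toMatrix b1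
    (Algebra.TensorProduct.basis (ResidueField C.O) bp) fun g => ?_
  refine (hb1 g).trans ?_
  rw [show Deform.matOf (tateRep C F) bO g = (Deform.matOf F.ρ b g).map (algebraMap ℤ_[p] C.O) from
    hbO g]
  refine Eq.trans ?_ (LinearMap.toMatrix_baseChange (A := ResidueField C.O)
    ((EC.residualRep E p).ρ g) bp bp).symm
  rw [hbp]
  ext i j
  exact residue_algebraMap C _

/-- Every characteristic polynomial of the torsion over the residue field splits. -/
theorem curveRbar_split (σ : GQ) : ∃ α β : ResidueField C.O,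
    LinearMap.charpoly ((curveRbar C E).ρ σ) = (X - Polynomial.C α) * (X - Polynomial.C β) := by
  obtain ⟨α, β, h⟩ := C.splits (LinearMap.trace (ZMod p) _ ((EC.residualRep E p).ρ σ))
    (LinearMap.det ((EC.residualRep E p).ρ σ))
  refine ⟨α, β, Eq.trans ?_ h⟩
  refine (LinearMap.charpoly_baseChange ((EC.residualRep E p).ρ σ) (ResidueField C.O)).trans ?_
  rw [Fermat.Agent.Gal.charpoly_fin_two' (EC.residualRep E p).finrank_eq]
  simp [RingHom.ext_zmod (algebraMap (ZMod p) (ResidueField C.O))
    (ZMod.castHom (dvd_refl p) (ResidueField C.O))]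

section Model

variable {W : WeierstrassCurve ℤ} [(W.map (Int.castRingHom ℚ)).IsElliptic]

/-- The image conditions on the torsion over the residue field. -/
theorem curveRbar_facts (hΔ : W.Δ ≠ 0) (hp2 : p ≠ 2) (hss : W.IsSemistableModel)
    (hirr : W.ModRepIsIrreducible p) :
    (curveRbar C (W.map (Int.castRingHom ℚ))).IsAbsolutelyIrreducible ∧
      ∀ (K : Type) [Field K] [Algebra (ResidueField C.O) K]
        (H : Subgroup GQ), H.index = 2 →
        ∀ V : Submodule K ((curveRbar C (W.map (Int.castRingHom ℚ))).baseChange K).V,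
          (∀ σ ∈ H, ∀ x ∈ V,
            ((curveRbar C (W.map (Int.castRingHom ℚ))).baseChange K).ρ σ x ∈ V) →
          V = ⊥ ∨ V = ⊤ :=
  LevelLowering.Semistable.residualRep_facts hΔ hp2 hss hirr (ResidueField C.O)

/-- The characteristic polynomial of Frobenius at a good prime. -/
theorem charpoly_curveRbar_frobenius {ℓ : ℕ} (hℓ : ℓ.Prime) (hℓp : ℓ ≠ p)
    (hgood : W.IsGoodPrimeFor ℓ) {A : ValuationSubring Qbar} (hA : A.LiesOverPrime ℓ) {σ : GQ}
    (hσ : A.IsFrobeniusAt σ ℓ) :
    LinearMap.charpoly ((curveRbar C (W.map (Int.castRingHom ℚ))).ρ σ) =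
      Polynomial.X ^ 2 - Polynomial.C (residue C.O (W.apOfModel ℓ : C.O)) * Polynomial.X +
        Polynomial.C (ℓ : ResidueField C.O) := by
  classical
  refine (LinearMap.charpoly_baseChange ((EC.residualRep (W.map (Int.castRingHom ℚ)) p).ρ σ)
    (ResidueField C.O)).trans ?_
  have ht : LinearMap.trace (ZMod p) _ ((EC.residualRep (W.map (Int.castRingHom ℚ)) p).ρ σ) =
      (W.apOfModel ℓ : ZMod p) :=
    EC.galoisTrace_frobenius W p ℓ hℓ hℓp hgood hA hσ
  have hd : LinearMap.det ((EC.residualRep (W.map (Int.castRingHom ℚ)) p).ρ σ) = (ℓ : ZMod p) :=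
    EC.det_frobenius p ℓ (W.map (Int.castRingHom ℚ)) hℓ hℓp hA hσ
  rw [Fermat.Agent.Gal.charpoly_fin_two' (EC.residualRep (W.map (Int.castRingHom ℚ)) p).finrank_eq,
    ht, hd]
  simp

end Model

end Fermat.Agent.Raising.Coeff
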