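import Fermat.Agent.LevelLowering.Scalar.PointsGlue

/-!
# Local conditions under extension of coefficients

Flatness and ordinarity pass along any local homomorphism (into a ring with finite residue field,
for flatness): a finite level of the extension is a quotient of finitely many copies of a level of
the representation.
-/

noncomputable section

namespace Fermat.Agent.Raising.Coeff

open IsLocalRing TensorProduct Module

variable {A B : Type} [CommRing A] [IsLocalRing A] [CommRing B] [IsLocalRing B] {φ : A →+* B}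
  (hφ : IsLocalHom φ) {ρ : GaloisRepAdic A} {p : ℕ}

/-- Ordinarity passes along a local homomorphism. -/
theorem isOrdinaryAt_baseChange (h : ρ.IsOrdinaryAt p) :
    (ρ.baseChangeAlong φ hφ).IsOrdinaryAt p := fun P hP => by
  let : Algebra A B := φ.toAlgebra
  obtain ⟨L, ⟨b, rfl⟩, hD, hI⟩ := h P hP
  let bc : Basis (Fin 2) B (B ⊗[A] ρ.V) := Algebra.TensorProduct.basis B b
  have hb0 : bc 0 = (1 : B) ⊗ₜ[A] b 0 := Algebra.TensorProduct.basis_apply b 0
  have hmem : ∀ (c : B), ∀ l ∈ A ∙ b 0, c ⊗ₜ[A] l ∈ B ∙ bc 0 := fun c l hl => by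
    obtain ⟨a, rfl⟩ := Submodule.mem_span_singleton.1 hl
    refine Submodule.mem_span_singleton.2 ⟨a • c, ?_⟩
    simp only [bc, Algebra.TensorProduct.basis_apply, smul_tmul', smul_eq_mul, mul_one, tmul_smul]
  refine ⟨B ∙ bc 0, ⟨bc, rfl⟩, ?_, ?_⟩
  · intro σ hσ (v : B ⊗[A] ρ.V) hv
    obtain ⟨c, rfl⟩ := (Submodule.mem_span_singleton (R := B) (M := B ⊗[A] ρ.V) (y := bc 0)).1 hv
    change (ρ.ρ σ).baseChange B (c • bc 0) ∈ B ∙ bc 0
    rw [map_smul, hb0, LinearMap.baseChange_tmul, ← hb0]
    exact Submodule.smul_mem _ c (hmem 1 _ (hD σ hσ _ (Submodule.mem_span_singleton_self _)))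
  · intro σ hσ (v : B ⊗[A] ρ.V)
    change (ρ.ρ σ).baseChange B v - v ∈ B ∙ bc 0
    induction v using TensorProduct.induction_on with
    | zero => simp
    | tmul c w => rw [LinearMap.baseChange_tmul, ← tmul_sub]; exact hmem c _ (hI σ hσ w)
    | add v w hv hw => rw [map_add, add_sub_add_comm]; exact add_mem hv hw

/-- Flatness passes along a local homomorphism into a ring with finite residue field. -/
theorem isFlatAt_baseChange_of_finite [Fact p.Prime] [Finite (ResidueField B)] (h : ρ.IsFlatAt p) :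
    (ρ.baseChangeAlong φ hφ).IsFlatAt p := by
  classical
  let : Algebra A B := φ.toAlgebra
  refine ⟨‹_›, fun I hI => ?_⟩
  let J : Ideal A := I.comap φ
  have hJ : Finite (A ⧸ J) :=
    Finite.of_injective (Ideal.quotientMap I φ le_rfl) Ideal.quotientMap_injective
  have := LevelLowering.Scalar.finite_level ρ J
  have := Fintype.ofFinite (B ⧸ I)
  let N : Submodule B (B ⊗[A] ρ.V) := I • ⊤
  let g : B → (ρ.V ⧸ (J • (⊤ : Submodule A ρ.V))) →+ (B ⊗[A] ρ.V) ⧸ N := fun c =>
    ((J • (⊤ : Submodule A ρ.V)).liftQ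
      (((Submodule.mkQ N).restrictScalars A).comp (TensorProduct.mk A B ρ.V c)) fun v hv => by
      refine Submodule.smul_induction_on hv (fun a ha w _ => ?_) fun x y hx hy => add_mem hx hy
      rw [LinearMap.mem_ker, LinearMap.comp_apply, TensorProduct.mk_apply,
        LinearMap.restrictScalars_apply, Submodule.mkQ_apply, Submodule.Quotient.mk_eq_zero,
        tmul_smul, ← algebraMap_smul B a]
      exact Submodule.smul_mem_smul (show algebraMap A B a ∈ I from ha)
        Submodule.mem_top).toAddMonoidHom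
  have hg : ∀ c v, g c (Submodule.Quotient.mk v) = Submodule.Quotient.mk (p := N) (c ⊗ₜ[A] v) :=
    fun c v => rfl
  let π : (B ⧸ I → ρ.V ⧸ (J • (⊤ : Submodule A ρ.V))) →+ (B ⊗[A] ρ.V) ⧸ N :=
    ∑ x : B ⧸ I, (g (Quotient.out x)).comp (Pi.evalAddMonoidHom _ x)
  have hπ : ∀ f, π f = ∑ x, g (Quotient.out x) (f x) := fun f => by
    rw [AddMonoidHom.finsetSum_apply]
    rfl
  have hHM := Flat.HasFlatModel.piFinite (ℓ := p) (ι := B ⧸ I)
    (act := fun _ σ x => ρ.levelAction J σ x) (fun _ => h.2 J hJ) fun _ σ => map_zero _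
  have hN : ∀ σ, N ≤ N.comap ((ρ.ρ σ).baseChange B) := fun σ => by
    rw [← Submodule.map_le_iff_le_comap, Submodule.map_smul'']
    exact Submodule.smul_mono le_rfl le_top
  suffices key : Flat.HasFlatModel p ((B ⊗[A] ρ.V) ⧸ N)
      fun σ y => N.mapQ N ((ρ.ρ σ).baseChange B) (hN σ) y from key
  refine hHM.quot π (fun y => ?_) (fun σ f => ?_) fun σ => funext fun _ => map_zero _
  · obtain ⟨z, rfl⟩ := Submodule.mkQ_surjective _ y
    induction z using TensorProduct.induction_on with
    | zero => exact ⟨0, by rw [map_zero, map_zero]⟩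
    | tmul c v =>
      refine ⟨Pi.single (Ideal.Quotient.mk I c) (Submodule.Quotient.mk v), ?_⟩
      refine ((hπ _).trans (Finset.sum_eq_single (Ideal.Quotient.mk I c) (fun x _ hx => ?_)
        fun hx => absurd (Finset.mem_univ _) hx)).trans ?_
      · rw [Pi.single_eq_of_ne hx, map_zero]
      rw [Pi.single_eq_same]
      refine (hg _ _).trans ?_
      refine (Submodule.Quotient.eq _).2 ?_
      rw [← sub_tmul, show (Quotient.out (Ideal.Quotient.mk I c) - c : B) ⊗ₜ[A] v =
        (Quotient.out (Ideal.Quotient.mk I c) - c) • ((1 : B) ⊗ₜ[A] v) by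
          rw [smul_tmul', smul_eq_mul, mul_one]]
      exact Submodule.smul_mem_smul (Ideal.Quotient.eq.1 (Quotient.out_eq _)) Submodule.mem_top
    | add z w hz hw =>
      obtain ⟨a, ha⟩ := hz
      obtain ⟨b, hb⟩ := hw
      exact ⟨a + b, by rw [map_add, ha, hb, map_add]⟩
  · show π (fun x => ρ.levelAction J σ (f x)) = (ρ.baseChangeAlong φ hφ).levelAction I σ (π f)
    refine (hπ _).trans (Eq.trans (Finset.sum_congr rfl fun x _ => ?_)
      ((congrArg (N.mapQ N ((ρ.ρ σ).baseChange B) (hN σ)) (hπ f)).trans (map_sum _ _ _)).symm)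
    obtain ⟨v, hv⟩ := Submodule.Quotient.mk_surjective _ (f x)
    rw [← hv]
    rfl

end Fermat.Agent.Raising.Coeff
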