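import Mathlib.LinearAlgebra.Basis.VectorSpace
import Fermat.Agent.Ihara.RaiseForms

/-!
# Eigenclasses and fields of coefficients

An eigenclass with integer eigenvalues over one field of characteristic zero gives one over every
field of characteristic zero.
-/

noncomputable section

namespace Fermat.Agent.Raising.Coeff

open scoped MatrixGroups
open CongruenceSubgroup ModularFormClass Fermat.Agent.Grp Fermat.Agent.Hecke Fermat.Agent.Ihara

/-- An eigenclass with integer eigenvalues descends to `ℚ` and extends to every field of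
characteristic zero. -/
theorem exists_clH_of_intCast {K K' : Type} [Field K] [CharZero K] [Field K'] [CharZero K']
    {N : ℕ} [NeZero N] {φ : clH K N} (hφ : φ ≠ 0) (s : Set ℕ) (a : ℕ → ℤ)
    (h : ∀ (ℓ : ℕ) [NeZero ℓ], ℓ ∈ s → clT K N ℓ φ = (a ℓ : K) • φ) :
    ∃ ψ : clH K' N, ψ ≠ 0 ∧ ∀ (ℓ : ℕ) [NeZero ℓ], ℓ ∈ s → clT K' N ℓ ψ = (a ℓ : K') • ψ := by
  obtain ⟨γ, hγ⟩ : ∃ γ, (φ : Additive (Gamma0 N) →+ K) γ ≠ 0 := by
    by_contra hne
    push Not at hne
    exact hφ (Subtype.ext (AddMonoidHom.ext hne))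
  obtain ⟨f, hf⟩ := Module.Projective.exists_dual_ne_zero ℚ hγ
  let ψ₀ : clH ℚ N := ⟨f.toAddMonoidHom.comp φ.1, IsClHom.comp φ.2 _⟩
  have hψ₀ : ψ₀ ≠ 0 := fun e => hf (DFunLike.congr_fun (congrArg Subtype.val e) γ)
  refine ⟨clMap (Rat.castHom K') ψ₀, fun e => hψ₀ (clMap_injective _ (Rat.castHom K').injective
    (e.trans (map_zero _).symm)), fun ℓ _ hℓ => ?_⟩
  have e₀ : clT ℚ N ℓ ψ₀ = (a ℓ : ℚ) • ψ₀ := by
    refine Subtype.ext ((transferHom_comp (upperConj N ℓ) f.toAddMonoidHom φ.1).trans ?_)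
    refine AddMonoidHom.ext fun x => ?_
    have hx := DFunLike.congr_fun (congrArg Subtype.val (h ℓ hℓ)) x
    show f (perTransfer N ℓ K φ.1 x) = (a ℓ : ℚ) • f (φ.1 x)
    rw [← map_smul, Int.cast_smul_eq_zsmul, ← Int.cast_smul_eq_zsmul K]
    exact congrArg f hx
  rw [clT_clMap, e₀, clMap_smul, map_intCast]

end Fermat.Agent.Raising.Coeff
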